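import Fermat.Agent.S56.H726.Mat2

/-!
# S56 / P3(b) — twisted cocycles in `Ψ`-form (helper726)

`G` a group, `ρ : G →* M₂(k)`, `ψ : G → sl₂(k)` a cocycle for the twisted adjoint action
`g · X = det ρ(g) · ρ(g) X ρ(g)⁻¹`.  We work with `Ψ g = ψ g * ρ g`, which satisfies
`Ψ (g h) = Ψ g * ρ h + det ρ(g) • ρ g * Ψ h`.  `H` is a normal subgroup on which `det ρ = 1`
and `ρ(H)` spans `M₂(k)`; `Ψ` vanishes on `H ∩ ker ρ`.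
-/

set_option autoImplicit false

namespace Fermat.Agent.S56.H726

open Matrix

/-- The data of a twisted cocycle in `Ψ`-form. -/
structure TwData (k : Type*) [Field k] (G : Type*) [Group G] where
  /-- the representation -/
  ρ : G →* Matrix (Fin 2) (Fin 2) k
  /-- the cocycle, multiplied on the right by `ρ` -/
  Ψ : G → Matrix (Fin 2) (Fin 2) k
  /-- the normal subgroup -/
  H : Subgroup G
  normal : H.Normal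
  det_H : ∀ h ∈ H, (ρ h).det = 1
  Ψ_mul : ∀ g h, Ψ (g * h) = Ψ g * ρ h + (ρ g).det • (ρ g * Ψ h)
  tr_zero : ∀ g, (Ψ g * ρ g⁻¹).trace = 0
  Ψ_N : ∀ h ∈ H, ρ h = 1 → Ψ h = 0
  span : Submodule.span k (ρ '' (H : Set G)) = ⊤
  split : ∀ h ∈ H, ∃ α β : k, (ρ h).trace = α + β ∧ α * β = 1

namespace TwData

variable {k : Type*} [Field k] {G : Type*} [Group G] (D : TwData k G)

theorem ρ_mul_inv (g : G) : D.ρ g * D.ρ g⁻¹ = 1 := by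
  rw [← map_mul, mul_inv_cancel, map_one]

theorem ρ_inv_mul (g : G) : D.ρ g⁻¹ * D.ρ g = 1 := by
  rw [← map_mul, inv_mul_cancel, map_one]

theorem det_ne_zero (g : G) : (D.ρ g).det ≠ 0 := by
  intro h
  have := congrArg Matrix.det (D.ρ_mul_inv g)
  rw [Matrix.det_mul, h, zero_mul, Matrix.det_one] at this
  exact zero_ne_one this

theorem Ψ_one : D.Ψ 1 = 0 := by
  have := D.Ψ_mul 1 1
  simp only [mul_one, map_one, Matrix.det_one, one_smul, one_mul] at this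
  exact left_eq_add.mp this |>.symm ▸ rfl

/-- `Ψ (h⁻¹) = - ρ(h)⁻¹ Ψ(h) ρ(h)⁻¹` on `H`. -/
theorem Ψ_inv {h : G} (hh : h ∈ D.H) : D.Ψ h⁻¹ = -(D.ρ h⁻¹ * D.Ψ h * D.ρ h⁻¹) := by
  have e := D.Ψ_mul h h⁻¹
  rw [mul_inv_cancel, D.Ψ_one, D.det_H h hh, one_smul] at e
  have e2 : D.ρ h * D.Ψ h⁻¹ = -(D.Ψ h * D.ρ h⁻¹) := by
    rw [eq_neg_iff_add_eq_zero, add_comm]; exact e.symm
  calc D.Ψ h⁻¹ = (D.ρ h⁻¹ * D.ρ h) * D.Ψ h⁻¹ := by rw [D.ρ_inv_mul, one_mul]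
    _ = D.ρ h⁻¹ * (D.ρ h * D.Ψ h⁻¹) := by rw [mul_assoc]
    _ = _ := by rw [e2, mul_neg, mul_assoc]

/-- General form: `det ρ(g) • Ψ (g⁻¹) = - ρ(g)⁻¹ Ψ(g) ρ(g)⁻¹`. -/
theorem Ψ_inv' (g : G) : (D.ρ g).det • D.Ψ g⁻¹ = -(D.ρ g⁻¹ * D.Ψ g * D.ρ g⁻¹) := by
  have e := D.Ψ_mul g g⁻¹
  rw [mul_inv_cancel, D.Ψ_one] at e
  have e2 : (D.ρ g).det • (D.ρ g * D.Ψ g⁻¹) = -(D.Ψ g * D.ρ g⁻¹) := by
    rw [eq_neg_iff_add_eq_zero, add_comm]; exact e.symm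
  calc (D.ρ g).det • D.Ψ g⁻¹ = (D.ρ g).det • ((D.ρ g⁻¹ * D.ρ g) * D.Ψ g⁻¹) := by
        rw [D.ρ_inv_mul, one_mul]
    _ = D.ρ g⁻¹ * ((D.ρ g).det • (D.ρ g * D.Ψ g⁻¹)) := by
        rw [mul_assoc, Matrix.mul_smul]
    _ = _ := by rw [e2, mul_neg, mul_assoc]

/-- (I) the trace identity. -/
theorem f_add {σ τ : G} (hσ : σ ∈ D.H) (hτ : τ ∈ D.H) :
    (D.Ψ (σ * τ)).trace + (D.Ψ (σ * τ⁻¹)).trace =
      (D.ρ σ).trace * (D.Ψ τ).trace + (D.ρ τ).trace * (D.Ψ σ).trace := by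
  have h1 := D.Ψ_mul σ τ
  have h2 := D.Ψ_mul σ τ⁻¹
  rw [D.det_H σ hσ, one_smul] at h1 h2
  rw [D.Ψ_inv hτ] at h2
  have hadd := m2_add_inv (D.det_H τ hτ) (D.ρ_mul_inv τ)
  have hsub := m2_sub_conj (D.det_H τ hτ) (D.ρ_mul_inv τ) (D.tr_zero τ)
  have e : D.Ψ (σ * τ) + D.Ψ (σ * τ⁻¹) =
      (D.ρ τ).trace • D.Ψ σ + (D.Ψ τ).trace • D.ρ σ := by
    rw [h1, h2]
    calc _ = D.Ψ σ * (D.ρ τ + D.ρ τ⁻¹) +
          D.ρ σ * (D.Ψ τ - D.ρ τ⁻¹ * D.Ψ τ * D.ρ τ⁻¹) := by noncomm_ring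
      _ = _ := by rw [hadd, hsub]; simp
  have := congrArg Matrix.trace e
  simp only [Matrix.trace_add, Matrix.trace_smul, smul_eq_mul] at this
  rw [this]; ring

/-- (II) conjugation by `G`. -/
theorem f_conj (g : G) {σ : G} (hσ : σ ∈ D.H) :
    (D.Ψ (g * σ * g⁻¹)).trace = (D.ρ g).det * (D.Ψ σ).trace := by
  have h1 := D.Ψ_mul (g * σ) g⁻¹
  have h2 := D.Ψ_mul g σ
  have h3 := D.Ψ_inv' g
  have hdet : (D.ρ (g * σ)).det = (D.ρ g).det := by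
    rw [map_mul, Matrix.det_mul, D.det_H σ hσ, mul_one]
  rw [hdet, map_mul, mul_assoc (D.ρ g) (D.ρ σ), ← Matrix.mul_smul, ← Matrix.mul_smul, h3, h2]
    at h1
  rw [h1]
  simp only [Matrix.trace_add, Matrix.add_mul, Matrix.mul_neg, Matrix.trace_neg,
    Matrix.smul_mul, Matrix.trace_smul, smul_eq_mul]
  have t1 : (D.ρ g * D.Ψ σ * D.ρ g⁻¹).trace = (D.Ψ σ).trace := by
    rw [Matrix.trace_mul_comm, ← mul_assoc, D.ρ_inv_mul, one_mul]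
  have t2 : (D.ρ g * (D.ρ σ * (D.ρ g⁻¹ * D.Ψ g * D.ρ g⁻¹))).trace =
      (D.Ψ g * D.ρ σ * D.ρ g⁻¹).trace := by
    rw [Matrix.trace_mul_comm]
    have : D.ρ σ * (D.ρ g⁻¹ * D.Ψ g * D.ρ g⁻¹) * D.ρ g = (D.ρ σ * D.ρ g⁻¹) * D.Ψ g := by
      rw [mul_assoc, mul_assoc, mul_assoc, D.ρ_inv_mul, mul_one, mul_assoc]
    rw [this, Matrix.trace_mul_comm, mul_assoc]
  rw [t1, t2]; ring

/-- `Ψ` is right invariant under `H ∩ ker ρ`. -/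
theorem Ψ_mul_N (σ : G) {ν : G} (hν : ν ∈ D.H) (h1 : D.ρ ν = 1) : D.Ψ (σ * ν) = D.Ψ σ := by
  rw [D.Ψ_mul, h1, D.Ψ_N ν hν h1, mul_one, mul_zero, smul_zero, add_zero]

theorem det_pow {σ : G} (hσ : σ ∈ D.H) (m : ℕ) : (D.ρ (σ ^ m)).det = 1 :=
  D.det_H _ (D.H.pow_mem hσ m)

/-- (III), trace form. -/
theorem trace_pow {σ : G} (hσ : σ ∈ D.H) (m : ℕ) :
    (D.Ψ (σ ^ m) * D.ρ σ⁻¹ ^ m * D.ρ σ).trace = (m : k) * (D.Ψ σ).trace := by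
  induction m with
  | zero => simp [D.Ψ_one]
  | succ m ih =>
    have hc : Commute (D.ρ σ) (D.ρ σ⁻¹) := by
      rw [Commute, SemiconjBy, D.ρ_mul_inv, D.ρ_inv_mul]
    have e := D.Ψ_mul (σ ^ m) σ
    rw [D.det_pow hσ, one_smul, ← pow_succ, map_pow] at e
    rw [e, add_mul, add_mul, Matrix.trace_add]
    have a1 : D.Ψ (σ ^ m) * D.ρ σ * D.ρ σ⁻¹ ^ (m + 1) * D.ρ σ =
        D.Ψ (σ ^ m) * D.ρ σ⁻¹ ^ m * D.ρ σ := by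
      rw [pow_succ', mul_assoc (D.Ψ (σ ^ m)), ← mul_assoc (D.ρ σ) (D.ρ σ⁻¹), D.ρ_mul_inv,
        one_mul]
    have a2 : (D.ρ σ ^ m * D.Ψ σ * D.ρ σ⁻¹ ^ (m + 1) * D.ρ σ).trace = (D.Ψ σ).trace := by
      rw [pow_succ, mul_assoc _ (D.ρ σ⁻¹ ^ m * D.ρ σ⁻¹), mul_assoc (D.ρ σ⁻¹ ^ m),
        D.ρ_inv_mul, mul_one, mul_assoc, Matrix.trace_mul_comm, mul_assoc,
        ← hc.symm.mul_pow m, D.ρ_inv_mul, one_pow, mul_one]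
    rw [a1, a2, ih]; push_cast; ring

/-- (III): if `ρ(σ)^m = 1` then `m • f(σ) = 0`. -/
theorem natCast_mul_f_eq_zero {σ : G} (hσ : σ ∈ D.H) (m : ℕ) (hm : D.ρ σ ^ m = 1) :
    (m : k) * (D.Ψ σ).trace = 0 := by
  rw [← D.trace_pow hσ m, D.Ψ_N (σ ^ m) (D.H.pow_mem hσ m) (by rw [map_pow, hm])]
  simp

end TwData

end Fermat.Agent.S56.H726
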