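import Fermat.Agent.S56.H726.Five

/-!
# S56 / P3(b) — from `tr Ψ = 0` on `H` to a coboundary (helper726)

(V) if `f = tr Ψ` vanishes on `H`, then `Ψ|_H` extends to a derivation of `M₂(k)`, which is
inner; (VI) a cocycle vanishing on `H` vanishes.
-/

set_option autoImplicit false

namespace Fermat.Agent.S56.H726

open Matrix

namespace TwData

variable {k : Type*} [Field k] {G : Type*} [Group G] (D : TwData k G)

/-- Antisymmetry of the pairing `tr (Ψ σ * ρ τ)` when `f` vanishes on `H`. -/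
theorem trace_ρ_mul_Ψ (hf : ∀ σ ∈ D.H, (D.Ψ σ).trace = 0) {σ τ : G} (hσ : σ ∈ D.H)
    (hτ : τ ∈ D.H) : (D.ρ σ * D.Ψ τ).trace = -(D.Ψ σ * D.ρ τ).trace := by
  have h := hf (σ * τ) (D.H.mul_mem hσ hτ)
  rw [D.Ψ_mul, D.det_H σ hσ, one_smul, Matrix.trace_add] at h
  linear_combination h

/-- (V), first step: a linear map `Dv` with `Dv (ρ σ) = Ψ σ` on `H`. -/
theorem exists_linear (hf : ∀ σ ∈ D.H, (D.Ψ σ).trace = 0) :
    ∃ Dv : Matrix (Fin 2) (Fin 2) k →ₗ[k] Matrix (Fin 2) (Fin 2) k,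
      ∀ σ ∈ D.H, Dv (D.ρ σ) = D.Ψ σ := by
  classical
  obtain ⟨b, hbs, hspan, hli⟩ := exists_linearIndependent k (D.ρ '' (D.H : Set G))
  have hsp : ⊤ ≤ Submodule.span k (Set.range (Subtype.val : b → Matrix (Fin 2) (Fin 2) k)) := by
    rw [Subtype.range_coe, hspan, D.span]
  let B := Module.Basis.mk hli hsp
  have hsel : ∀ x : b, ∃ σ : G, σ ∈ D.H ∧ D.ρ σ = x := fun x => hbs x.2
  choose sel hselH hselρ using hsel
  let Dv : Matrix (Fin 2) (Fin 2) k →ₗ[k] Matrix (Fin 2) (Fin 2) k :=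
    B.constr k (fun x : b => D.Ψ (sel x))
  have hDvB : ∀ x : b, Dv (x : Matrix (Fin 2) (Fin 2) k) = D.Ψ (sel x) := by
    intro x
    have : B x = (x : Matrix (Fin 2) (Fin 2) k) := by simp [B]
    rw [← this]
    exact B.constr_basis k _ x
  refine ⟨Dv, fun σ hσ => ?_⟩
  rw [← sub_eq_zero]
  apply D.eq_zero_of_trace_ρ_mul
  intro τ hτ
  -- two functionals agreeing on the basis
  set L₁ : Matrix (Fin 2) (Fin 2) k →ₗ[k] k :=
    ((Matrix.traceLinearMap (Fin 2) k k).comp (LinearMap.mulLeft k (D.ρ τ))).comp Dv with hL₁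
  set L₂ : Matrix (Fin 2) (Fin 2) k →ₗ[k] k :=
    -((Matrix.traceLinearMap (Fin 2) k k).comp (LinearMap.mulLeft k (D.Ψ τ))) with hL₂
  have hL : L₁ = L₂ := by
    apply B.ext
    intro x
    have hx : B x = (x : Matrix (Fin 2) (Fin 2) k) := by simp [B]
    rw [hx]
    show (D.ρ τ * Dv (x : Matrix (Fin 2) (Fin 2) k)).trace = -(D.Ψ τ * x).trace
    rw [hDvB, D.trace_ρ_mul_Ψ hf hτ (hselH x), hselρ]
  have h1 : (D.ρ τ * Dv (D.ρ σ)).trace = -(D.Ψ τ * D.ρ σ).trace := by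
    have := congrArg (fun L => L (D.ρ σ)) hL
    exact this
  rw [mul_sub, Matrix.trace_sub, h1, D.trace_ρ_mul_Ψ hf hτ hσ]
  ring

/-- (V): `Ψ` restricted to `H` is inner. -/
theorem exists_inner_on_H (hf : ∀ σ ∈ D.H, (D.Ψ σ).trace = 0) :
    ∃ m : Matrix (Fin 2) (Fin 2) k, ∀ σ ∈ D.H, D.Ψ σ = m * D.ρ σ - D.ρ σ * m := by
  obtain ⟨Dv, hDv⟩ := D.exists_linear hf
  have step1 : ∀ σ ∈ D.H, ∀ Y, Dv (D.ρ σ * Y) = D.Ψ σ * Y + D.ρ σ * Dv Y := by
    intro σ hσ Y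
    have hY : Y ∈ Submodule.span k (D.ρ '' (D.H : Set G)) := by rw [D.span]; trivial
    induction hY using Submodule.span_induction with
    | mem Y hY =>
      obtain ⟨τ, hτ, rfl⟩ := hY
      rw [← map_mul, hDv _ (D.H.mul_mem hσ hτ), hDv τ hτ, D.Ψ_mul, D.det_H σ hσ, one_smul]
    | zero => simp
    | add x y _ _ hx hy =>
      rw [mul_add, map_add, hx, hy, map_add, mul_add, mul_add]; abel
    | smul a x _ hx =>
      rw [Matrix.mul_smul, map_smul, hx, map_smul, Matrix.mul_smul, Matrix.mul_smul, smul_add]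
  have step2 : ∀ X Y, Dv (X * Y) = Dv X * Y + X * Dv Y := by
    intro X Y
    have hX : X ∈ Submodule.span k (D.ρ '' (D.H : Set G)) := by rw [D.span]; trivial
    induction hX using Submodule.span_induction with
    | mem X hX =>
      obtain ⟨σ, hσ, rfl⟩ := hX
      rw [step1 σ hσ, hDv σ hσ]
    | zero => simp
    | add x y _ _ hx hy =>
      rw [add_mul, map_add, hx, hy, map_add, add_mul, add_mul]; abel
    | smul a x _ hx =>
      rw [Matrix.smul_mul, map_smul, hx, map_smul, Matrix.smul_mul, Matrix.smul_mul, smul_add]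
  obtain ⟨m, hm⟩ := m2_inner_of_derivation Dv step2
  exact ⟨m, fun σ hσ => by rw [← hDv σ hσ, hm]⟩

/-- (VI): a cocycle (in `Ψ`-form) which vanishes on `H` vanishes. -/
theorem eq_zero_of_vanish_on_H (h2 : (2 : k) ≠ 0) (Φ : G → Matrix (Fin 2) (Fin 2) k)
    (hΦ : ∀ g h, Φ (g * h) = Φ g * D.ρ h + (D.ρ g).det • (D.ρ g * Φ h))
    (htr : ∀ g, (Φ g * D.ρ g⁻¹).trace = 0)
    (hH : ∀ h ∈ D.H, Φ h = 0) (g : G) : Φ g = 0 := by
  have key : ∀ h ∈ D.H, (D.ρ g⁻¹ * Φ g) * D.ρ h = D.ρ h * (D.ρ g⁻¹ * Φ g) := by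
    intro h hh
    have hc : g * h * g⁻¹ ∈ D.H := D.normal.conj_mem h hh g
    have e1 := hΦ g h
    rw [hH h hh, mul_zero, smul_zero, add_zero] at e1
    have e2 := hΦ (g * h * g⁻¹) g
    rw [hH _ hc, zero_mul, zero_add, D.det_H _ hc, one_smul, inv_mul_cancel_right, D.ρ_conj]
      at e2
    rw [e1] at e2
    -- e2 : Φ g * ρ h = ρ g * ρ h * ρ g⁻¹ * Φ g
    rw [mul_assoc, e2]
    have : D.ρ g⁻¹ * (D.ρ g * D.ρ h * D.ρ g⁻¹ * Φ g) =
        (D.ρ g⁻¹ * D.ρ g) * D.ρ h * (D.ρ g⁻¹ * Φ g) := by noncomm_ring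
    rw [this, D.ρ_inv_mul, one_mul]
  have hY := m2_eq_zero_of_commute h2 (D.commute_of_commute_ρ key)
    (by rw [Matrix.trace_mul_comm]; exact htr g)
  calc Φ g = (D.ρ g * D.ρ g⁻¹) * Φ g := by rw [D.ρ_mul_inv, one_mul]
    _ = D.ρ g * (D.ρ g⁻¹ * Φ g) := by rw [mul_assoc]
    _ = 0 := by rw [hY, mul_zero]

/-- **The cocycle is a coboundary** (`Ψ`-form). -/
theorem exists_coboundary [Finite k] (p : ℕ) [Fact p.Prime] [CharP k p] (hp2 : p ≠ 2)
    (h5 : p = 5 → ∃ g : G, (D.ρ g).det ≠ 1 ∧ (D.ρ g).det ≠ -1) :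
    ∃ m : Matrix (Fin 2) (Fin 2) k, m.trace = 0 ∧
      ∀ g, D.Ψ g = (D.ρ g).det • (D.ρ g * m) - m * D.ρ g := by
  have hpr : p.Prime := Fact.out
  have h2 : (2 : k) ≠ 0 := by
    have := natCast_ne_zero_of_lt (k := k) p (n := 2) (by norm_num)
      (lt_of_le_of_ne hpr.two_le (Ne.symm hp2))
    exact_mod_cast this
  have hf := D.f_eq_zero p hp2 h5
  obtain ⟨m₀, hm₀⟩ := D.exists_inner_on_H hf
  -- normalise the trace
  set m : Matrix (Fin 2) (Fin 2) k := (m₀.trace / 2) • (1 : Matrix (Fin 2) (Fin 2) k) - m₀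
    with hm
  have hmtr : m.trace = 0 := by
    rw [hm, Matrix.trace_sub, Matrix.trace_smul, Matrix.trace_one, Fintype.card_fin,
      smul_eq_mul]
    push_cast
    field_simp
    ring
  refine ⟨m, hmtr, fun g => ?_⟩
  rw [← sub_eq_zero]
  refine D.eq_zero_of_vanish_on_H h2
    (fun g => D.Ψ g - ((D.ρ g).det • (D.ρ g * m) - m * D.ρ g)) ?_ ?_ ?_ g
  · intro g h
    rw [D.Ψ_mul, map_mul, Matrix.det_mul]
    simp only [sub_mul, mul_sub, smul_sub, Matrix.smul_mul, Matrix.mul_smul, mul_assoc,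
      smul_smul]
    rw [mul_comm (D.ρ g).det (D.ρ h).det]
    abel
  · intro g
    rw [sub_mul, sub_mul, Matrix.trace_sub, Matrix.trace_sub, D.tr_zero, Matrix.smul_mul,
      Matrix.trace_smul, mul_assoc m, D.ρ_mul_inv, mul_one, hmtr,
      Matrix.trace_mul_comm (D.ρ g * m), ← mul_assoc, D.ρ_inv_mul, one_mul, hmtr]
    simp
  · intro h hh
    rw [hm₀ h hh, D.det_H h hh, one_smul, hm]
    simp only [mul_sub, sub_mul, Matrix.mul_smul, Matrix.smul_mul, mul_one, one_mul]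
    abel

end TwData

/-- **`H¹` vanishing, cocycle form.**  `k` a finite field of odd characteristic `p`,
`ρ : G →* M₂(k)`, `H ⊴ G` with `det ρ = 1` on `H` and `ρ(H)` spanning `M₂(k)`, eigenvalues of
`ρ(h)`, `h ∈ H`, in `k`; if `p = 5` assume `det ρ(g) ≠ ±1` for some `g`.  Then every cocycle
`ψ : G → sl₂(k)` for the twisted adjoint action `g · X = det ρ(g) ρ(g) X ρ(g)⁻¹` which vanishes
on `H ∩ ker ρ` is a coboundary. -/
theorem h1_vanishing {k : Type*} [Field k] [Finite k] {G : Type*} [Group G]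
    (p : ℕ) [Fact p.Prime] [CharP k p] (hp2 : p ≠ 2)
    (ρ : G →* Matrix (Fin 2) (Fin 2) k) (H : Subgroup G) (hH : H.Normal)
    (hdet : ∀ h ∈ H, (ρ h).det = 1)
    (hspan : Submodule.span k (ρ '' (H : Set G)) = ⊤)
    (hsplit : ∀ h ∈ H, ∃ α β : k, (ρ h).trace = α + β ∧ α * β = 1)
    (h5 : p = 5 → ∃ g : G, (ρ g).det ≠ 1 ∧ (ρ g).det ≠ -1)
    (ψ : G → Matrix (Fin 2) (Fin 2) k)
    (hψtr : ∀ g, (ψ g).trace = 0)
    (hψ : ∀ g h, ψ (g * h) = ψ g + (ρ g).det • (ρ g * ψ h * ρ g⁻¹))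
    (hN : ∀ h ∈ H, ρ h = 1 → ψ h = 0) :
    ∃ m : Matrix (Fin 2) (Fin 2) k, m.trace = 0 ∧
      ∀ g, ψ g = (ρ g).det • (ρ g * m * ρ g⁻¹) - m := by
  have hinv : ∀ g, ρ g * ρ g⁻¹ = 1 := fun g => by rw [← map_mul, mul_inv_cancel, map_one]
  have hinv' : ∀ g, ρ g⁻¹ * ρ g = 1 := fun g => by rw [← map_mul, inv_mul_cancel, map_one]
  let D : TwData k G :=
    { ρ := ρ
      Ψ := fun g => ψ g * ρ g
      H := H
      normal := hH
      det_H := hdet
      Ψ_mul := fun g h => by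
        have e1 : ψ g * (ρ g * ρ h) = ψ g * ρ g * ρ h := (mul_assoc _ _ _).symm
        have e2 : ρ g * ψ h * ρ g⁻¹ * (ρ g * ρ h) = ρ g * (ψ h * ρ h) := by
          have : ρ g * ψ h * ρ g⁻¹ * (ρ g * ρ h) = ρ g * ψ h * (ρ g⁻¹ * ρ g) * ρ h := by
            noncomm_ring
          rw [this, hinv', mul_one, mul_assoc]
        rw [hψ, map_mul, add_mul, Matrix.smul_mul, e1, e2]
      tr_zero := fun g => by
        rw [mul_assoc, hinv, mul_one]
        exact hψtr g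
      Ψ_N := fun h hh h1 => by
        rw [hN h hh h1, zero_mul]
      span := hspan
      split := hsplit }
  obtain ⟨m, hm, hcob⟩ := D.exists_coboundary p hp2 h5
  refine ⟨m, hm, fun g => ?_⟩
  have h := hcob g
  have e : ψ g = (ψ g * ρ g) * ρ g⁻¹ := by rw [mul_assoc, hinv, mul_one]
  rw [e]
  change ψ g * ρ g = (ρ g).det • (ρ g * m) - m * ρ g at h
  rw [h, sub_mul, Matrix.smul_mul, mul_assoc m, hinv, mul_one]

end Fermat.Agent.S56.H726
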