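import Mathlib

/-!
# S56 / P3(b) — `2 × 2` matrix identities (helper726)

Elementary identities for `2 × 2` matrices over a field used in the classification-free proof
of `H¹(Gal(F_n/ℚ), ad⁰ρ̄(1)) = 0`.
-/

set_option autoImplicit false

namespace Fermat.Agent.S56.H726

open Matrix

variable {k : Type*} [Field k]

/-- Cayley–Hamilton for `2 × 2` matrices. -/
theorem m2_sq (B : Matrix (Fin 2) (Fin 2) k) :
    B * B = B.trace • B - B.det • (1 : Matrix (Fin 2) (Fin 2) k) := by
  ext i j
  fin_cases i <;> fin_cases j <;>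
    simp [Matrix.mul_apply, Fin.sum_univ_two, Matrix.trace_fin_two, Matrix.det_fin_two] <;> ring

/-- Polarised Cayley–Hamilton for `2 × 2` matrices. -/
theorem m2_polar (X Y : Matrix (Fin 2) (Fin 2) k) :
    X * Y + Y * X = X.trace • Y + Y.trace • X +
      ((X * Y).trace - X.trace * Y.trace) • (1 : Matrix (Fin 2) (Fin 2) k) := by
  ext i j
  fin_cases i <;> fin_cases j <;>
    simp [Matrix.mul_apply, Fin.sum_univ_two, Matrix.trace_fin_two] <;> ring

/-- The inverse of a matrix of determinant one. -/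
theorem m2_inv_of_det_one {B B' : Matrix (Fin 2) (Fin 2) k} (hdet : B.det = 1)
    (h : B * B' = 1) : B' = B.trace • (1 : Matrix (Fin 2) (Fin 2) k) - B := by
  have h1 : B * (B.trace • (1 : Matrix (Fin 2) (Fin 2) k) - B) = 1 := by
    rw [mul_sub, m2_sq, hdet]
    simp
  have h2 : B' * B = 1 := mul_eq_one_comm.mp h
  calc B' = B' * (B * (B.trace • (1 : Matrix (Fin 2) (Fin 2) k) - B)) := by rw [h1, mul_one]
    _ = (B' * B) * (B.trace • (1 : Matrix (Fin 2) (Fin 2) k) - B) := by rw [mul_assoc]
    _ = _ := by rw [h2, one_mul]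

/-- `B + B⁻¹ = tr B` for `det B = 1`. -/
theorem m2_add_inv {B B' : Matrix (Fin 2) (Fin 2) k} (hdet : B.det = 1)
    (h : B * B' = 1) : B + B' = B.trace • (1 : Matrix (Fin 2) (Fin 2) k) := by
  rw [m2_inv_of_det_one hdet h]; abel

/-- `Z - B⁻¹ Z B⁻¹ = tr(Z) • 1` when `tr (Z B⁻¹) = 0`, `det B = 1`. -/
theorem m2_sub_conj {B B' Z : Matrix (Fin 2) (Fin 2) k} (hdet : B.det = 1)
    (h : B * B' = 1) (hZ : (Z * B').trace = 0) :
    Z - B' * Z * B' = Z.trace • (1 : Matrix (Fin 2) (Fin 2) k) := by
  have h2 : B' * B = 1 := mul_eq_one_comm.mp h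
  have hYB : Z * B' * B = Z := by rw [mul_assoc, h2, mul_one]
  have hB' := m2_inv_of_det_one hdet h
  have hpol := m2_polar B (Z * B')
  have htr : (B * (Z * B')).trace = Z.trace := by rw [Matrix.trace_mul_comm, hYB]
  rw [hZ, htr, hYB] at hpol
  have e1 : B' * Z * B' = B.trace • (Z * B') - B * (Z * B') := by
    rw [mul_assoc]; nth_rewrite 1 [hB']; rw [sub_mul, smul_mul_assoc, one_mul]
  rw [e1]
  linear_combination (norm := module) hpol

/-- `n X n = tr(n X) • n` for a nilpotent `2 × 2` matrix `n` (`n² = 0`, `tr n = 0`). -/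
theorem m2_nil_sandwich {n : Matrix (Fin 2) (Fin 2) k} (hn : n * n = 0) (htr : n.trace = 0)
    (X : Matrix (Fin 2) (Fin 2) k) : n * X * n = (n * X).trace • n := by
  have hpol := m2_polar n (X * n)
  have h1 : X * n * n = 0 := by rw [mul_assoc, hn, mul_zero]
  have h2 : (n * (X * n)).trace = 0 := by
    rw [Matrix.trace_mul_comm, h1, Matrix.trace_zero]
  rw [h1, add_zero, htr, h2, Matrix.trace_mul_comm X n] at hpol
  rw [mul_assoc, hpol]
  module

/-- A square-zero `2 × 2` matrix has trace zero. -/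
theorem m2_trace_of_sq_zero {n : Matrix (Fin 2) (Fin 2) k} (hn : n * n = 0) : n.trace = 0 := by
  have h := m2_sq n
  rw [hn] at h
  have hdet : n.det = 0 := by
    have : (n * n).det = 0 := by rw [hn]; simp
    rw [Matrix.det_mul] at this
    exact mul_self_eq_zero.mp this
  rw [hdet, zero_smul, sub_zero] at h
  by_contra ht
  have hn0 : n = 0 := by
    have := h.symm
    rcases smul_eq_zero.mp this with h' | h'
    · exact absurd h' ht
    · exact h'
  exact ht (by rw [hn0, Matrix.trace_zero])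

/-- Nondegeneracy of the trace form on `2 × 2` matrices. -/
theorem m2_eq_zero_of_trace_mul {Y : Matrix (Fin 2) (Fin 2) k}
    (h : ∀ X : Matrix (Fin 2) (Fin 2) k, (X * Y).trace = 0) : Y = 0 := by
  ext i j
  have key : (Matrix.single j i (1 : k) * Y).trace = Y i j := by
    fin_cases i <;> fin_cases j <;>
      simp [Matrix.trace_fin_two, Matrix.mul_apply, Fin.sum_univ_two, Matrix.single_apply]
  rw [← key, h]; rfl

end Fermat.Agent.S56.H726
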