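import Fermat.Agent.S56.H726.Mat2

/-!
# S56 / P3(b) — more `2 × 2` matrix lemmas (helper726)

* `m2_pow_card_sub_one` : a matrix of determinant one with distinct eigenvalues in the finite
  field `k` has order dividing `|k| - 1`.
* `m2_nil_prop` : two square-zero matrices which are orthogonal for the trace form are
  proportional.
* `m2_unip_pow` : `(1 + n)^j = 1 + j • n` for `n² = 0`.
* `m2_scalar_of_commute`, `m2_inner_of_derivation`.
-/

set_option autoImplicit false

namespace Fermat.Agent.S56.H726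

open Matrix

variable {k : Type*} [Field k]

theorem m2_eigen_pow {B : Matrix (Fin 2) (Fin 2) k} {α β : k}
    (hdet : B.det = 1) (htr : B.trace = α + β) (hαβ : α * β = 1) (m : ℕ) :
    B ^ m * (B - β • (1 : Matrix (Fin 2) (Fin 2) k)) =
      α ^ m • (B - β • (1 : Matrix (Fin 2) (Fin 2) k)) := by
  have hB := m2_sq B
  rw [hdet, htr] at hB
  have h1 : B * (B - β • (1 : Matrix (Fin 2) (Fin 2) k)) =
      α • (B - β • (1 : Matrix (Fin 2) (Fin 2) k)) := by
    rw [mul_sub, hB, smul_sub, smul_smul, hαβ]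
    simp only [Matrix.mul_smul, mul_one]
    module
  induction m with
  | zero => simp
  | succ m ih =>
    rw [pow_succ, mul_assoc, h1, Matrix.mul_smul, ih, smul_smul, pow_succ, mul_comm]

/-- A matrix of determinant one with distinct eigenvalues in the finite field `k` has order
dividing `|k| - 1`. -/
theorem m2_pow_card_sub_one [Fintype k] {B : Matrix (Fin 2) (Fin 2) k} {α β : k}
    (hdet : B.det = 1) (htr : B.trace = α + β) (hαβ : α * β = 1) (hne : α ≠ β) :
    B ^ (Fintype.card k - 1) = 1 := by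
  have hα : α ≠ 0 := left_ne_zero_of_mul_eq_one hαβ
  have hβ : β ≠ 0 := right_ne_zero_of_mul_eq_one hαβ
  have e1 := m2_eigen_pow hdet htr hαβ (Fintype.card k - 1)
  have e2 := m2_eigen_pow (α := β) (β := α) hdet (by rw [htr, add_comm])
    (by rw [mul_comm]; exact hαβ) (Fintype.card k - 1)
  rw [FiniteField.pow_card_sub_one_eq_one α hα, one_smul] at e1
  rw [FiniteField.pow_card_sub_one_eq_one β hβ, one_smul] at e2
  have e3 : (α - β) • B ^ (Fintype.card k - 1) =
      (α - β) • (1 : Matrix (Fin 2) (Fin 2) k) := by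
    have : (α - β) • B ^ (Fintype.card k - 1) =
        B ^ (Fintype.card k - 1) * (B - β • (1 : Matrix (Fin 2) (Fin 2) k)) -
          B ^ (Fintype.card k - 1) * (B - α • (1 : Matrix (Fin 2) (Fin 2) k)) := by
      rw [← mul_sub]
      have : (B - β • (1 : Matrix (Fin 2) (Fin 2) k)) - (B - α • 1) =
          (α - β) • (1 : Matrix (Fin 2) (Fin 2) k) := by module
      rw [this, Matrix.mul_smul, mul_one]
    rw [this, e1, e2]; module
  exact smul_right_injective _ (sub_ne_zero.mpr hne) e3

/-- `(1 + n)^j = 1 + j • n` for `n² = 0`. -/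
theorem m2_unip_pow {n : Matrix (Fin 2) (Fin 2) k} (hn : n * n = 0) (j : ℕ) :
    (1 + n) ^ j = 1 + (j : k) • n := by
  induction j with
  | zero => simp
  | succ j ih =>
    rw [pow_succ, ih, add_mul, one_mul, mul_add, mul_one, Matrix.smul_mul, hn, smul_zero,
      add_zero]
    push_cast
    module

/-- Two square-zero `2 × 2` matrices which are orthogonal for the trace form are
proportional. -/
theorem m2_nil_prop {n n' : Matrix (Fin 2) (Fin 2) k} (hn : n * n = 0) (hn' : n' * n' = 0)
    (h : (n' * n).trace = 0) (h0 : n ≠ 0) : ∃ y : k, n' = y • n := by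
  have ht := m2_trace_of_sq_zero hn
  have ht' := m2_trace_of_sq_zero hn'
  rw [Matrix.trace_fin_two] at ht ht'
  have hd : n 1 1 = -n 0 0 := by linear_combination ht
  have hd' : n' 1 1 = -n' 0 0 := by linear_combination ht'
  have h1 : n 0 0 ^ 2 + n 0 1 * n 1 0 = 0 := by
    have := congrFun (congrFun hn 0) 0
    simp only [Matrix.mul_apply, Fin.sum_univ_two, Matrix.zero_apply] at this
    linear_combination this
  have h1' : n' 0 0 ^ 2 + n' 0 1 * n' 1 0 = 0 := by
    have := congrFun (congrFun hn' 0) 0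
    simp only [Matrix.mul_apply, Fin.sum_univ_two, Matrix.zero_apply] at this
    linear_combination this
  have h2 : 2 * n 0 0 * n' 0 0 + n' 0 1 * n 1 0 + n' 1 0 * n 0 1 = 0 := by
    rw [Matrix.trace_fin_two] at h
    simp only [Matrix.mul_apply, Fin.sum_univ_two] at h
    rw [hd, hd'] at h
    linear_combination h
  by_cases hb : n 0 1 = 0
  · -- `b = 0`
    have ha : n 0 0 = 0 := by
      rw [hb, zero_mul, add_zero] at h1
      exact pow_eq_zero_iff (by norm_num) |>.mp h1
    have hdz : n 1 1 = 0 := by rw [hd, ha, neg_zero]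
    have hc : n 1 0 ≠ 0 := by
      intro hc
      apply h0
      ext i j
      fin_cases i <;> fin_cases j <;> simp [ha, hb, hc, hdz]
    have hb' : n' 0 1 = 0 := by
      rw [ha, hb] at h2
      simp only [mul_zero, zero_mul, zero_add, add_zero] at h2
      rcases mul_eq_zero.mp h2 with h' | h'
      · exact h'
      · exact absurd h' hc
    have ha' : n' 0 0 = 0 := by
      rw [hb', zero_mul, add_zero] at h1'
      exact pow_eq_zero_iff (by norm_num) |>.mp h1'
    refine ⟨n' 1 0 / n 1 0, ?_⟩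
    ext i j
    fin_cases i <;> fin_cases j
    · simp [ha, ha']
    · simp [hb, hb']
    · simp only [Fin.mk_one, Fin.isValue, Fin.zero_eta, Matrix.smul_apply, smul_eq_mul]
      field_simp
    · simp [hd, hd', ha, ha']
  · -- `b ≠ 0`
    have e1 : (n' 0 0 * n 0 1 - n 0 0 * n' 0 1) ^ 2 = 0 := by
      linear_combination (n 0 1) ^ 2 * h1' - n 0 1 * n' 0 1 * h2 + (n' 0 1) ^ 2 * h1
    have e1' : n' 0 0 * n 0 1 - n 0 0 * n' 0 1 = 0 := pow_eq_zero_iff (by norm_num) |>.mp e1
    have e2 : n 0 1 * (n' 1 0 * n 0 1 - n' 0 1 * n 1 0) = 0 := by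
      linear_combination n 0 1 * h2 - 2 * n 0 0 * e1' - 2 * n' 0 1 * h1
    have e2' : n' 1 0 * n 0 1 - n' 0 1 * n 1 0 = 0 := by
      rcases mul_eq_zero.mp e2 with h' | h'
      · exact absurd h' hb
      · exact h'
    refine ⟨n' 0 1 / n 0 1, ?_⟩
    ext i j
    fin_cases i <;> fin_cases j
    · simp only [Fin.zero_eta, Fin.isValue, Matrix.smul_apply, smul_eq_mul]
      field_simp
      linear_combination e1'
    · simp only [Fin.zero_eta, Fin.isValue, Fin.mk_one, Matrix.smul_apply, smul_eq_mul]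
      field_simp
    · simp only [Fin.zero_eta, Fin.isValue, Fin.mk_one, Matrix.smul_apply, smul_eq_mul]
      field_simp
      linear_combination e2'
    · simp only [Fin.isValue, Fin.mk_one, Matrix.smul_apply, smul_eq_mul]
      rw [hd, hd']
      field_simp
      linear_combination -e1'

/-- A `2 × 2` matrix commuting with all matrices is scalar. -/
theorem m2_scalar_of_commute {Y : Matrix (Fin 2) (Fin 2) k}
    (h : ∀ X : Matrix (Fin 2) (Fin 2) k, Y * X = X * Y) :
    Y = (Y 0 0) • (1 : Matrix (Fin 2) (Fin 2) k) := by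
  have h01 := h (Matrix.single 0 1 1)
  have h10 := h (Matrix.single 1 0 1)
  have a1 := congrFun (congrFun h01 0) 1
  have a2 := congrFun (congrFun h01 0) 0
  have a3 := congrFun (congrFun h10 1) 1
  simp [Matrix.mul_apply, Matrix.single_apply] at a1 a2 a3
  ext i j
  fin_cases i <;> fin_cases j
  · simp
  · simp [← a3]
  · simp [← a2]
  · simp [a1]

/-- A trace-zero `2 × 2` matrix commuting with all matrices vanishes (`2 ≠ 0`). -/
theorem m2_eq_zero_of_commute (h2 : (2 : k) ≠ 0) {Y : Matrix (Fin 2) (Fin 2) k}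
    (h : ∀ X : Matrix (Fin 2) (Fin 2) k, Y * X = X * Y) (ht : Y.trace = 0) : Y = 0 := by
  have hs := m2_scalar_of_commute h
  have : Y 0 0 = 0 := by
    have e := congrArg Matrix.trace hs
    rw [ht, Matrix.trace_smul, Matrix.trace_one, Fintype.card_fin, smul_eq_mul] at e
    rcases mul_eq_zero.mp e.symm with h' | h'
    · exact h'
    · exact absurd (by exact_mod_cast h') h2
  rw [hs, this, zero_smul]

/-- Every derivation of `M₂(k)` is inner. -/
theorem m2_inner_of_derivation
    (Dv : Matrix (Fin 2) (Fin 2) k →ₗ[k] Matrix (Fin 2) (Fin 2) k)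
    (hD : ∀ X Y, Dv (X * Y) = Dv X * Y + X * Dv Y) :
    ∃ m : Matrix (Fin 2) (Fin 2) k, ∀ X, Dv X = m * X - X * m := by
  refine ⟨Dv (Matrix.single 0 0 1) * Matrix.single 0 0 1 +
    Dv (Matrix.single 1 0 1) * Matrix.single 0 1 1, fun X => ?_⟩
  have hone : (Matrix.single 0 0 1 : Matrix (Fin 2) (Fin 2) k) * Matrix.single 0 0 1 +
      Matrix.single 1 0 1 * Matrix.single 0 1 1 = 1 := by
    ext i j
    fin_cases i <;> fin_cases j <;> simp
  have hX0 : X * Matrix.single 0 0 1 =
      X 0 0 • (Matrix.single 0 0 1 : Matrix (Fin 2) (Fin 2) k) + X 1 0 • Matrix.single 1 0 1 := by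
    ext i j
    fin_cases i <;> fin_cases j <;> simp [Matrix.mul_apply, Matrix.single_apply]
  have hX1 : X * Matrix.single 1 0 1 =
      X 0 1 • (Matrix.single 0 0 1 : Matrix (Fin 2) (Fin 2) k) + X 1 1 • Matrix.single 1 0 1 := by
    ext i j
    fin_cases i <;> fin_cases j <;> simp [Matrix.mul_apply, Matrix.single_apply]
  have hY0 : (Matrix.single 0 0 1 : Matrix (Fin 2) (Fin 2) k) * X =
      X 0 0 • (Matrix.single 0 0 1 : Matrix (Fin 2) (Fin 2) k) + X 0 1 • Matrix.single 0 1 1 := by
    ext i j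
    fin_cases i <;> fin_cases j <;> simp [Matrix.mul_apply, Matrix.single_apply]
  have hY1 : (Matrix.single 0 1 1 : Matrix (Fin 2) (Fin 2) k) * X =
      X 1 0 • (Matrix.single 0 0 1 : Matrix (Fin 2) (Fin 2) k) + X 1 1 • Matrix.single 0 1 1 := by
    ext i j
    fin_cases i <;> fin_cases j <;> simp [Matrix.mul_apply, Matrix.single_apply]
  have d0 := hD X (Matrix.single 0 0 1)
  have d1 := hD X (Matrix.single 1 0 1)
  rw [hX0, map_add, map_smul, map_smul] at d0
  rw [hX1, map_add, map_smul, map_smul] at d1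
  -- `Dv X = Dv X * 1`
  have key : Dv X = Dv X * (Matrix.single 0 0 1 * Matrix.single 0 0 1 +
      Matrix.single 1 0 1 * Matrix.single 0 1 1) := by rw [hone, mul_one]
  have k0 : Dv X * Matrix.single 0 0 1 =
      X 0 0 • Dv (Matrix.single 0 0 1) + X 1 0 • Dv (Matrix.single 1 0 1) -
        X * Dv (Matrix.single 0 0 1) := by rw [d0]; abel
  have k1 : Dv X * Matrix.single 1 0 1 =
      X 0 1 • Dv (Matrix.single 0 0 1) + X 1 1 • Dv (Matrix.single 1 0 1) -
        X * Dv (Matrix.single 1 0 1) := by rw [d1]; abel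
  rw [key, mul_add, ← mul_assoc, ← mul_assoc, k0, k1, add_mul, mul_assoc _ _ X,
    mul_assoc _ _ X, hY0, hY1, mul_add X, ← mul_assoc X, ← mul_assoc X]
  simp only [sub_mul, add_mul, mul_add, Matrix.smul_mul, Matrix.mul_smul]
  abel

end Fermat.Agent.S56.H726
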