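import Mathlib

/-!
# S56 / P3(b) — the second order recurrence (helper726)

Pure algebra over a field `k` of characteristic `p`: sequences `F : ℕ → k` with
`F (j+2) - 2 F (j+1) + F j = μ (t₀ + (j+1) c)` which vanish whenever `(t₀ + j c)² ≠ 4`.
-/

set_option autoImplicit false

namespace Fermat.Agent.S56.H726

open Polynomial

variable {k : Type*} [Field k]

/-- Small natural numbers are nonzero in characteristic `p`. -/
theorem natCast_ne_zero_of_lt (p : ℕ) [CharP k p] {n : ℕ} (h0 : n ≠ 0) (hn : n < p) :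
    (n : k) ≠ 0 := by
  intro h
  have := (CharP.cast_eq_zero_iff k p n).mp h
  exact absurd (Nat.le_of_dvd (Nat.pos_of_ne_zero h0) this) (not_le.mpr hn)

/-- The case `p = 3`. -/
theorem seq_three [CharP k 3] (F : ℕ → k) (μ t₀ c : k)
    (hrec : ∀ j : ℕ, F (j + 2) - 2 * F (j + 1) + F j = μ * (t₀ + ((j : k) + 1) * c))
    (hper : ∀ j, F (j + 3) = F j) : μ * c = 0 := by
  have h3 : (3 : k) = 0 := by
    have := CharP.cast_eq_zero k 3
    exact_mod_cast this
  have e0 := hrec 0
  have e1 := hrec 1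
  have e3 := hper 0
  simp only [zero_add, Nat.cast_zero, Nat.cast_one] at e0 e1 e3
  norm_num at e0 e1
  rw [e3] at e1
  linear_combination e0 - e1 + (F 1 - F 2) * h3

/-- The cubic polynomial interpolating the sequence. -/
noncomputable def seqPoly (A B μ t₀ c : k) : k[X] :=
  C A + C B * X + C (μ * t₀ / 2) * (X * (X - 1)) + C (μ * c / 6) * ((X + 1) * X * (X - 1))

theorem seqPoly_eval (A B μ t₀ c x : k) :
    (seqPoly A B μ t₀ c).eval x =
      A + B * x + (μ * t₀ / 2) * (x * (x - 1)) + (μ * c / 6) * ((x + 1) * x * (x - 1)) := by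
  simp [seqPoly]

theorem seqPoly_natDegree_le (A B μ t₀ c : k) : (seqPoly A B μ t₀ c).natDegree ≤ 3 := by
  unfold seqPoly
  compute_degree

/-- The sequence is given by the cubic polynomial. -/
theorem seq_eq_eval (h2 : (2 : k) ≠ 0) (h6 : (6 : k) ≠ 0) (F : ℕ → k) (μ t₀ c : k)
    (hrec : ∀ j : ℕ, F (j + 2) - 2 * F (j + 1) + F j = μ * (t₀ + ((j : k) + 1) * c)) :
    ∀ j : ℕ, F j = (seqPoly (F 0) (F 1 - F 0) μ t₀ c).eval (j : k) := by
  have key : ∀ j : ℕ, F j = (seqPoly (F 0) (F 1 - F 0) μ t₀ c).eval (j : k) ∧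
      F (j + 1) = (seqPoly (F 0) (F 1 - F 0) μ t₀ c).eval ((j + 1 : ℕ) : k) := by
    intro j
    induction j with
    | zero =>
      refine ⟨?_, ?_⟩
      · simp [seqPoly_eval]
      · simp [seqPoly_eval]
    | succ j ih =>
      refine ⟨ih.2, ?_⟩
      have hr := hrec j
      have e : F (j + 1 + 1) = 2 * F (j + 1) - F j + μ * (t₀ + ((j : k) + 1) * c) := by
        linear_combination hr
      rw [e, ih.1, ih.2]
      simp only [seqPoly_eval]
      push_cast
      field_simp
      ring
  exact fun j => (key j).1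

/-- The case `p ≥ 7`. -/
theorem seq_cubic (p : ℕ) [Fact p.Prime] [CharP k p] (hp : 7 ≤ p)
    (F : ℕ → k) (μ t₀ c : k)
    (hrec : ∀ j : ℕ, F (j + 2) - 2 * F (j + 1) + F j = μ * (t₀ + ((j : k) + 1) * c))
    (hvan : ∀ j : ℕ, (t₀ + (j : k) * c) ^ 2 ≠ 4 → F j = 0) : μ * c = 0 := by
  have h2 : (2 : k) ≠ 0 := by
    have := natCast_ne_zero_of_lt (k := k) p (n := 2) (by norm_num) (by omega)
    exact_mod_cast this
  have h6 : (6 : k) ≠ 0 := by
    have := natCast_ne_zero_of_lt (k := k) p (n := 6) (by norm_num) (by omega)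
    exact_mod_cast this
  have hF := seq_eq_eval h2 h6 F μ t₀ c hrec
  have hPdeg := seqPoly_natDegree_le (F 0) (F 1 - F 0) μ t₀ c
  generalize seqPoly (F 0) (F 1 - F 0) μ t₀ c = P at hF hPdeg
  set R : k[X] := (C t₀ + C c * X) ^ 2 - C 4 with hR
  have hRdeg : R.natDegree ≤ 2 := by
    rw [hR]; compute_degree
  have hReval : ∀ x : k, R.eval x = (t₀ + x * c) ^ 2 - 4 := by
    intro x
    rw [hR]
    simp only [Polynomial.eval_sub, Polynomial.eval_pow, Polynomial.eval_add,
      Polynomial.eval_mul, Polynomial.eval_C, Polynomial.eval_X]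
    ring
  have hQdeg : (P * R).natDegree ≤ 5 :=
    (Polynomial.natDegree_mul_le).trans (by omega)
  have hinj : Function.Injective (fun i : Fin p => ((i : ℕ) : k)) := by
    intro i j hij
    have := (CharP.natCast_eq_natCast k p).mp hij
    apply Fin.ext
    have hi := Nat.mod_eq_of_lt i.isLt
    have hj := Nat.mod_eq_of_lt j.isLt
    unfold Nat.ModEq at this
    omega
  have heval : ∀ i : Fin p, (P * R).eval ((i : ℕ) : k) = 0 := by
    intro i
    rw [Polynomial.eval_mul]
    by_cases h : (t₀ + ((i : ℕ) : k) * c) ^ 2 = 4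
    · rw [hReval, h, sub_self, mul_zero]
    · rw [← hF, hvan _ h, zero_mul]
  have hQ : P * R = 0 :=
    Polynomial.eq_zero_of_natDegree_lt_card_of_eval_eq_zero _ hinj heval (by
      rw [Fintype.card_fin]; omega)
  rcases mul_eq_zero.mp hQ with hP0 | hR0
  · have hF0 : ∀ j, F j = 0 := fun j => by rw [hF j, hP0, Polynomial.eval_zero]
    have e0 := hrec 0
    have e1 := hrec 1
    simp only [hF0, Nat.cast_zero, Nat.cast_one] at e0 e1
    linear_combination e0 - e1
  · have r0 : R.eval 0 = 0 := by rw [hR0, Polynomial.eval_zero]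
    have r1 : R.eval 1 = 0 := by rw [hR0, Polynomial.eval_zero]
    have r2 : R.eval 2 = 0 := by rw [hR0, Polynomial.eval_zero]
    rw [hReval] at r0 r1 r2
    have hc2 : 2 * c ^ 2 = 0 := by linear_combination r2 - 2 * r1 + r0
    have hc : c = 0 := by
      rcases mul_eq_zero.mp hc2 with h | h
      · exact absurd h h2
      · exact pow_eq_zero_iff (by norm_num) |>.mp h
    rw [hc, mul_zero]

/-- The case `p = 5` (with `t₀ = 2`). -/
theorem seq_five [CharP k 5] (F : ℕ → k) (μ e : k)
    (hrec : ∀ j : ℕ, F (j + 2) - 2 * F (j + 1) + F j = μ * (2 + ((j : k) + 1) * e))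
    (hper : ∀ j, F (j + 5) = F j)
    (hvan : ∀ j : ℕ, (2 + (j : k) * e) ^ 2 ≠ 4 → F j = 0)
    (he : e ≠ 0) (hμ : μ ≠ 0) : F 0 = μ ∨ F 0 = -μ := by
  have h5 : (5 : k) = 0 := by
    have := CharP.cast_eq_zero k 5
    exact_mod_cast this
  have n1 : (1 : k) ≠ 0 := one_ne_zero
  have n2 : (2 : k) ≠ 0 := by
    have := natCast_ne_zero_of_lt (k := k) 5 (n := 2) (by norm_num) (by norm_num)
    exact_mod_cast this
  have n3 : (3 : k) ≠ 0 := by
    have := natCast_ne_zero_of_lt (k := k) 5 (n := 3) (by norm_num) (by norm_num)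
    exact_mod_cast this
  have n4 : (4 : k) ≠ 0 := by
    have := natCast_ne_zero_of_lt (k := k) 5 (n := 4) (by norm_num) (by norm_num)
    exact_mod_cast this
  -- vanishing criterion
  have van : ∀ j : ℕ, (j : k) ≠ 0 → (j : k) * e ≠ 1 → F j = 0 := by
    intro j hj hje
    apply hvan
    intro h
    have : (j : k) * e * ((j : k) * e - 1) = 0 := by
      linear_combination h - (j : k) * e * h5
    rcases mul_eq_zero.mp this with h' | h'
    · exact (mul_ne_zero hj he) h'
    · exact hje (sub_eq_zero.mp h')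
  have e0 := hrec 0
  have e1 := hrec 1
  have e2 := hrec 2
  have e3 := hrec 3
  have p0 := hper 0
  simp only [zero_add, Nat.cast_zero, Nat.cast_one, Nat.cast_ofNat] at e0 e1 e2 e3 p0
  norm_num at e0 e1 e2 e3
  rw [p0] at e3
  have v1 := van 1
  have v2 := van 2
  have v3 := van 3
  have v4 := van 4
  simp only [Nat.cast_one, Nat.cast_ofNat, one_mul] at v1 v2 v3 v4
  by_cases c1 : e = 1
  · -- m = 1
    have f2 : F 2 = 0 := v2 n2 (by rw [c1]; intro h; apply n1; linear_combination h)
    have f3 : F 3 = 0 := v3 n3 (by rw [c1]; intro h; apply n2; linear_combination h)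
    have f4 : F 4 = 0 := v4 n4 (by rw [c1]; intro h; apply n3; linear_combination h)
    left
    rw [f2, f3] at e1
    rw [f2] at e0
    rw [c1] at e0 e1
    linear_combination e0 + 2 * e1 + 2 * μ * h5
  by_cases c2 : 2 * e = 1
  · have f1 : F 1 = 0 := v1 n1 c1
    have f3 : F 3 = 0 := v3 n3 (by intro h; apply he; linear_combination h - c2)
    have f4 : F 4 = 0 := v4 n4 (by intro h; apply n1; linear_combination h - 2 * c2)
    right
    rw [f3, f4] at e3
    linear_combination e3 + 2 * μ * c2 + μ * h5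
  by_cases c3 : 3 * e = 1
  · have f1 : F 1 = 0 := v1 n1 c1
    have f2 : F 2 = 0 := v2 n2 c2
    right
    rw [f1, f2] at e0
    -- e = 2 : from 3 e = 1, 6 e = 2, e = 2
    linear_combination e0 + 2 * μ * c3 + μ * (1 - e) * h5
  by_cases c4 : 4 * e = 1
  · have f1 : F 1 = 0 := v1 n1 c1
    have f2 : F 2 = 0 := v2 n2 c2
    left
    rw [f1, f2] at e0
    -- e = -1 = 4
    linear_combination e0 - μ * c4 + μ * e * h5
  · exfalso
    have f1 : F 1 = 0 := v1 n1 c1
    have f2 : F 2 = 0 := v2 n2 c2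
    have f3 : F 3 = 0 := v3 n3 c3
    rw [f1, f2, f3] at e1
    have : μ * (2 + 2 * e) = 0 := by linear_combination -e1
    rcases mul_eq_zero.mp this with h | h
    · exact hμ h
    · apply c4
      linear_combination 2 * h - h5

end Fermat.Agent.S56.H726
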